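import Fermat.Agent.RT.Lift59.Compose
import Fermat.Agent.RT.Lift59.Scalar.Strict
import Fermat.Agent.RT.Lift59.AtP.Main
import Fermat.Agent.EC.Multiplicative.Frey

/-!
# Level lowering for the Frey representation

A case of the descent for semistable models: `p` divides the exponent of every odd prime of a
conductor level in the discriminant of the Frey curve.
-/

set_option autoImplicit false

noncomputable section

open WeierstrassCurve WeierstrassCurve.Affine WeierstrassCurve.Affine.Point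
open scoped WeierstrassCurve.Affine

namespace Fermat.Agent.RT.Frey

/-- The integral model of the Frey curve is residually modular of the levels of its
representation. -/
theorem isResiduallyModularOfLevel_freyCurveInt {P : FreyPackage} {N : ℕ} (hN : N ≠ 0)
    (hmod : P.ModularRepOfLevel N) : P.freyCurveInt.IsResiduallyModularOfLevel P.p N := by
  classical
  have := Fact.mk P.pp
  have : NeZero N := ⟨hN⟩
  have hΔ := EC.Reduction.Frey.Δ_ne_zero P
  have hE : P.freyCurve.IsElliptic := Mazur.Small.frey_isElliptic P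
  obtain ⟨g, W, 𝔪, hg, hW, h𝔪, hp𝔪, hcong⟩ := hmod
  have hWΔ : W.Δ ≠ 0 := fun h0 => by
    obtain ⟨C, hC⟩ := hW
    have : (W.map (Int.castRingHom ℚ)).IsElliptic := hC ▸ inferInstance
    simpa [h0] using this.isUnit.ne_zero
  set S : Finset ℕ := insert P.p
    (N.primeFactors ∪ W.Δ.natAbs.primeFactors ∪ P.freyCurveInt.Δ.natAbs.primeFactors) with hS
  refine Lift59.residuallyModular_of_congr hΔ (S := S) (G := fun l => l.Prime → l ∉ S)
    (fun l h _ => h) (a := fun l => (P.freyCurveInt.apOfModel l : ZMod P.p).val)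
    (fun l => ZMod.natCast_zmod_val _) ⟨g, hg, 𝔪, h𝔪, hp𝔪, fun l hl hlS => ?_⟩
  have h := hlS hl
  simp only [hS, Finset.mem_insert, Finset.mem_union, not_or] at h
  have hgood : ∀ {x : ℤ}, x ≠ 0 → l ∉ x.natAbs.primeFactors → ¬ (l : ℤ) ∣ x := fun h0 hn hd =>
    hn (Nat.mem_primeFactors.mpr ⟨hl, Int.natCast_dvd.mp hd, Int.natAbs_ne_zero.mpr h0⟩)
  obtain ⟨c, hc, hcm⟩ := hcong l hl (hgood hWΔ h.2.1.2)
    (fun hd => h.2.1.1 (Nat.mem_primeFactors.mpr ⟨hl, hd, hN⟩)) h.1
  refine ⟨c, hc, AtP.sub_intCast_mem hp𝔪 ?_ hcm⟩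
  rw [Int.cast_natCast, ZMod.natCast_zmod_val]
  exact (Assembly.apOfModel_cast_eq (E := P.freyCurve) hW
    ⟨1, by rw [one_smul, EC.Reduction.Frey.freyCurve_eq_map]⟩ hl (hgood hWΔ h.2.1.2)
    (hgood hΔ h.2.2) h.1).symm

/-- A conductor level at which the Frey representation is modular has such a divisor without odd
prime factors. -/
theorem exists_level_no_odd (P : FreyPackage) {N : ℕ} (hcond : P.IsConductorLevel N)
    (hirr : GaloisRepIsIrreducible (K := AlgebraicClosure ℚ) ℚ P.freyCurve P.p)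
    (hmod : P.ModularRepOfLevel N) :
    ∃ M : ℕ, M ∣ N ∧ (∀ q : ℕ, q.Prime → q ∣ M → q = 2) ∧ P.ModularRepOfLevel M := by
  have hp5 := P.hp5
  rw [EC.Reduction.Frey.freyCurve_eq_map] at hirr
  have hs : Lift59.Setting P.freyCurveInt P.p :=
    ⟨⟨P.pp, by omega⟩, EC.Reduction.Frey.Δ_ne_zero P, fun q hq hd =>
      EC.Reduction.Frey.not_dvd_c₄ P hq
        (by_contra fun h => EC.Reduction.Frey.not_dvd_Δ P hq h hd), hirr⟩
  obtain ⟨M, hMN, hM, -, hram⟩ := Lift59.exists_minimal_of_squarefree Lift59.MazurQ.mazurInput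
    Lift59.AtP.atPInput Lift59.Scalar.scalarInput hs N
    ⟨hcond.pos, isResiduallyModularOfLevel_freyCurveInt hcond.pos.ne' hmod,
      hcond.sq_not_dvd P.pp,
      fun q hq _ h => hcond.sq_not_dvd hq ((pow_dvd_pow q (Nat.le_succ 2)).trans h)⟩
    hcond.squarefree
  refine ⟨M, hMN, fun q hq hqM => by_contra fun hq2 => hram q hq hqM ?_, ?_⟩
  · rw [Lift59.SmallAt, EC.Multiplicative.Frey.padicValInt_Δ_of_odd P hq hq2]
    exact (dvd_mul_left P.p 2).mul_right _
  · obtain ⟨g, 𝔪, hg, h𝔪, hp𝔪, hcong⟩ := hM.res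
    exact ⟨g, P.freyCurveInt, 𝔪, hg, ⟨1, by rw [one_smul, EC.Reduction.Frey.freyCurve_eq_map]⟩,
      h𝔪, hp𝔪, hcong⟩

end Fermat.Agent.RT.Frey

end
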