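import Fermat.Prelude.Def_FLTPrelim_FreyPackage
import Fermat.Prelude.Def_FLTPrelim_GaloisRep
import Fermat.Prelude.Def_FLTPrelim_Modularity
import Fermat.Prelude.Def_FLTPrelim_ModularRep
import Fermat.Prelude.Def_FLTPrelim_Ramification
import Fermat.Prelude.Def_FreyPackage_IsConductorLevel
import Fermat.Prelude.Def_WeierstrassCurve_Mlc1RowStatement

/-!
# The inputs of the deduction from level lowering and modularity lifting

The propositions of the milestone statements 43, 44 and 59, named so that they can be passed as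
arguments. They are proved in `RT.Endgame` (with `RT.MazurQ`), `RT.AtP` and `RT.Lift59`.
-/

set_option autoImplicit false

open WeierstrassCurve WeierstrassCurve.Affine WeierstrassCurve.Affine.Point
open CuspForm ModularFormClass UpperHalfPlane
open FreyPackage
open scoped WeierstrassCurve.Affine

namespace Fermat.Agent.RT.Frey

/-- The proposition of milestone statement 43. -/
def LowerOddInput : Prop := ∀ (P : FreyPackage) {N q : ℕ}, P.IsConductorLevel N →
  q.Prime → q ≠ 2 → q ≠ P.p → q ∣ N →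
  GaloisRepIsIrreducible (K := AlgebraicClosure ℚ) ℚ P.freyCurve P.p →
  P.ModularRepOfLevel N → P.GaloisRepUnramifiedAt q →
  ∃ M : ℕ, M ∣ N ∧ ¬ q ∣ M ∧ P.ModularRepOfLevel M

/-- The proposition of milestone statement 44. -/
def LowerAtPInput : Prop := ∀ (P : FreyPackage) {N : ℕ}, P.IsConductorLevel N →
  P.p ∣ N → GaloisRepIsIrreducible (K := AlgebraicClosure ℚ) ℚ P.freyCurve P.p →
  P.ModularRepOfLevel N →
  ∃ M : ℕ, M ∣ N ∧ ¬ P.p ∣ M ∧ P.ModularRepOfLevel M

/-- The proposition of milestone statement 59. -/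
def LiftingInput : Prop := ∀ (p : ℕ), p = 3 ∨ p = 5 →
  ∀ (W : WeierstrassCurve ℤ), W.Δ ≠ 0 → W.IsSemistableModel →
  W.ModRepIsIrreducible p →
  ∀ (M₀ : ℕ) [NeZero M₀], W.IsResiduallyModularOfLevel p M₀ →
  ¬ p ^ 2 ∣ M₀ →
  (∀ q : ℕ, q.Prime → q ≠ p → ¬ q ^ 3 ∣ M₀) →
  Mlc1IsModularModelOfExactConductorLevel W

end Fermat.Agent.RT.Frey
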