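import Fermat.Agent.RT.Frey.Lowering

/-!
# The integral model of the Frey curve is semistable
-/

set_option autoImplicit false

open WeierstrassCurve WeierstrassCurve.Affine WeierstrassCurve.Affine.Point
open CuspForm

namespace Fermat.Agent.RT.Frey

theorem freyCurveInt_isSemistableModel (P : FreyPackage) : P.freyCurveInt.IsSemistableModel :=
  fun _ hq hΔ => EC.Reduction.Frey.not_dvd_c₄ P hq
    (by_contra fun h => EC.Reduction.Frey.not_dvd_Δ P hq h hΔ)

theorem freyCurveInt_isIntegralModel (P : FreyPackage) :
    P.freyCurveInt.IsIntegralModelOf P.freyCurve :=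
  ⟨1, by rw [one_smul, EC.Reduction.Frey.freyCurve_eq_map]⟩

end Fermat.Agent.RT.Frey
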