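import Fermat.Agent.RT.Frey.Modular
import Fermat.Agent.S02
import Mathlib.NumberTheory.FLT.Three

/-!
# Fermat's Last Theorem from the absence of Frey packages
-/

set_option autoImplicit false

open WeierstrassCurve WeierstrassCurve.Affine WeierstrassCurve.Affine.Point
open CuspForm

namespace Fermat.Agent.RT.Frey

/-- The statement of milestone 1, from the absence of Frey packages. -/
theorem fermat_of_noFreyPackage (h03 : FreyPackage → False) (n : ℕ) (hn : 3 ≤ n) (a b c : ℕ)
    (ha : 0 < a) (hb : 0 < b) (hc : 0 < c) : a ^ n + b ^ n ≠ c ^ n := by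
  refine FermatLastTheorem.of_odd_primes (fun q hq hodd => ?_) n hn a b c ha.ne' hb.ne' hc.ne'
  rcases lt_or_ge q 5 with hlt | hge
  · obtain rfl : q = 3 := by
      obtain ⟨k, rfl⟩ := hodd
      have := hq.two_le
      omega
    exact fermatLastTheoremThree
  · rw [fermatLastTheoremFor_iff_int]
    intro x y z hx hy hz h
    obtain ⟨P⟩ := S02.result x y z hx hy hz q hq hge h
    exact h03 P

end Fermat.Agent.RT.Frey
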